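import Fermat.Agent.AV.Tors.Geom.SmoothPoint

/-!
# Standard smooth charts of a smooth scheme over an algebraically closed field
-/

set_option autoImplicit false

noncomputable section

universe u

open CategoryTheory AlgebraicGeometry IsLocalRing TopologicalSpace

namespace FermatLib.AV.Tors

variable {K : Type u} [Field K] {X : Scheme.{u}}
  (f : X ⟶ Spec (CommRingCat.of K))

/-- The constants in the sections over an open subscheme. -/
def constSection (V : X.Opens) : K →+* Γ(X, V) :=
  ((Scheme.ΓSpecIso (CommRingCat.of K)).inv ≫ f.appLE ⊤ V le_top).hom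

theorem constSection_eq (V : X.Opens) (c : K) :
    constSection f V c = X.presheaf.map (homOfLE le_top).op
      (((Scheme.ΓSpecIso (CommRingCat.of K)).inv ≫ f.appTop) c) := rfl

theorem exists_standardSmooth_chart (g : ℕ) [SmoothOfRelativeDimension g f] (x : X) :
    ∃ V : X.Opens, IsAffineOpen V ∧ x ∈ V ∧
      (constSection f V).IsStandardSmoothOfRelativeDimension g := by
  obtain ⟨U, -, V, hV, hx, e, he⟩ :=
    SmoothOfRelativeDimension.exists_isStandardSmoothOfRelativeDimension (n := g) (f := f) x
  obtain rfl : U = ⊤ := eq_top_iff.mpr fun p _ => by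
    rw [Subsingleton.elim p (f x)]
    exact e hx
  refine ⟨V, hV, hx, ?_⟩
  exact RingHom.isStandardSmoothOfRelativeDimension_respectsIso.2 _
    (Scheme.ΓSpecIso (CommRingCat.of K)).symm.commRingCatIsoToRingEquiv he

variable [IsAlgClosed K]

/-- The stalks at closed points have coordinates. -/
theorem exists_isCoordinates_stalk (g : ℕ) [SmoothOfRelativeDimension g f] (x : X)
    (hx : IsClosed {x}) [Algebra K (X.presheaf.stalk x)]
    (hK : ∀ c, algebraMap K (X.presheaf.stalk x) c = X.presheaf.germ ⊤ x trivial
      (((Scheme.ΓSpecIso (CommRingCat.of K)).inv ≫ f.appTop) c)) :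
    IsNoetherianRing (X.presheaf.stalk x) ∧ Algebra.EssFiniteType K (X.presheaf.stalk x) ∧
      ∃ t : Fin g → X.presheaf.stalk x, IsCoordinates (K := K) t := by
  obtain ⟨V, hV, hxV, hs⟩ := exists_standardSmooth_chart f g x
  let : Algebra K Γ(X, V) := (constSection f V).toAlgebra
  have : Algebra.IsStandardSmoothOfRelativeDimension g K Γ(X, V) := hs
  let : Algebra Γ(X, V) (X.presheaf.stalk x) := (X.presheaf.germ V x hxV).hom.toAlgebra
  have : IsScalarTower K Γ(X, V) (X.presheaf.stalk x) := .of_algebraMap_eq fun c =>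
    (hK c).trans (X.presheaf.germ_res_apply (homOfLE le_top) x hxV _).symm
  have := hV.isLocalization_stalk ⟨x, hxV⟩
  have := hV.primeIdealOf_isMaximal_of_isClosed ⟨x, hxV⟩ hx
  exact exists_isCoordinates_of_standardSmooth (hV.primeIdealOf ⟨x, hxV⟩).asIdeal

theorem isDomain_stalk_of_isClosed (g : ℕ) [SmoothOfRelativeDimension g f] (x : X)
    (hx : IsClosed {x}) : IsDomain (X.presheaf.stalk x) := by
  let : Algebra K (X.presheaf.stalk x) :=
    ((X.presheaf.germ ⊤ x trivial).hom.comp
      ((Scheme.ΓSpecIso (CommRingCat.of K)).inv ≫ f.appTop).hom).toAlgebra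
  obtain ⟨_, -, t, ht⟩ := exists_isCoordinates_stalk f g x hx fun _ => rfl
  exact ht.isDomain

theorem isReduced_of_smooth (g : ℕ) [SmoothOfRelativeDimension g f] :
    AlgebraicGeometry.IsReduced X := by
  have : ∀ x : X, _root_.IsReduced (X.presheaf.stalk x) := fun x => by
    obtain ⟨V, hV, hxV, hs⟩ := exists_standardSmooth_chart f g x
    let : Algebra K Γ(X, V) := (constSection f V).toAlgebra
    have : Algebra.IsStandardSmoothOfRelativeDimension g K Γ(X, V) := hs
    have : _root_.IsReduced Γ(X, V) := isReduced_of_standardSmooth (K := K) (g := g)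
    let : Algebra Γ(X, V) (X.presheaf.stalk x) := (X.presheaf.germ V x hxV).hom.toAlgebra
    have := hV.isLocalization_stalk ⟨x, hxV⟩
    exact isReduced_localizationPreserves
      (hV.primeIdealOf ⟨x, hxV⟩).asIdeal.primeCompl (X.presheaf.stalk x) inferInstance
  exact isReduced_of_isReduced_stalk X

end FermatLib.AV.Tors
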