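import Fermat.Agent.AV.Tors.Basic
import Fermat.Agent.AV.Tors.Geom.SmoothChart

/-!
# An abelian variety is integral
-/

set_option autoImplicit false

noncomputable section

universe u

open CategoryTheory AlgebraicGeometry GoodReductionJacobian IsLocalRing TopologicalSpace

namespace FermatLib.AV.Tors

theorem isIntegral_of_propertyBundle {K : Type u} [Field K] [IsAlgClosed K] {X : Scheme.{u}}
    (f : X ⟶ Spec (CommRingCat.of K)) (h : AbelianSchemePropertyBundle K f) (g : ℕ)
    [SmoothOfRelativeDimension g f] : IsIntegral X := by
  have : IsProper f := h.proper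
  have : IsLocallyNoetherian X := LocallyOfFiniteType.isLocallyNoetherian f
  have : CompactSpace X := QuasiCompact.compactSpace_of_compactSpace f
  have : IsNoetherian X := { }
  have : JacobsonSpace X := LocallyOfFiniteType.jacobsonSpace f
  have : AlgebraicGeometry.IsReduced X := isReduced_of_smooth f g
  have hconn : ConnectedSpace X := by
    have hc := h.connectedFibres default
    rw [show f.base ⁻¹' {default} = Set.univ from
      Set.eq_univ_of_forall fun x => Subsingleton.elim _ _] at hc
    exact connectedSpace_iff_univ.mpr hc
  have huniq : ∀ W₁ ∈ irreducibleComponents X, ∀ W₂ ∈ irreducibleComponents X,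
      (W₁ ∩ W₂).Nonempty → W₁ = W₂ := by
    intro W₁ h₁ W₂ h₂ hne
    have c₁ := isClosed_of_mem_irreducibleComponents W₁ h₁
    have c₂ := isClosed_of_mem_irreducibleComponents W₂ h₂
    obtain ⟨x, hx, hxc⟩ := nonempty_inter_closedPoints hne (c₁.inter c₂).isLocallyClosed
    have := isDomain_stalk_of_isClosed f g x hxc
    have key : ∀ W ∈ irreducibleComponents X, x ∈ W →
        W = closure {X.fromSpecStalk x (genericPoint _)} := by
      intro W hW hxW
      obtain ⟨y, hy⟩ := QuasiSober.sober hW.1 (isClosed_of_mem_irreducibleComponents W hW)
      have hyx : y ⤳ x := hy.specializes hxW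
      obtain ⟨p, rfl⟩ : y ∈ Set.range (X.fromSpecStalk x) := by
        rw [Scheme.range_fromSpecStalk]; exact hyx
      have hle : W ⊆ closure {X.fromSpecStalk x (genericPoint _)} := by
        rw [← hy.def]
        exact closure_minimal (Set.singleton_subset_iff.mpr
          (((genericPoint_specializes p).map (X.fromSpecStalk x).continuous).mem_closed
            isClosed_closure (subset_closure rfl))) isClosed_closure
      exact hle.antisymm (hW.2 isIrreducible_singleton.closure hle)
    rw [key W₁ h₁ hx.1, key W₂ h₂ hx.2]
  have : IrreducibleSpace X := by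
    obtain ⟨x⟩ := (inferInstance : Nonempty X)
    let W := irreducibleComponent x
    have hW : W ∈ irreducibleComponents X := irreducibleComponent_mem_irreducibleComponents x
    have hopen : IsOpen W := by
      have : W = (⋃ V ∈ irreducibleComponents X \ {W}, V)ᶜ := by
        refine IsCompl.eq_compl ⟨Set.disjoint_left.mpr fun z hz hz' => ?_, ?_⟩
        · simp only [Set.mem_iUnion, exists_prop] at hz'
          obtain ⟨V, hV, hzV⟩ := hz'
          exact hV.2 (huniq V hV.1 W hW ⟨z, hzV, hz⟩)
        · rw [codisjoint_iff, eq_top_iff]
          intro z _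
          by_cases hz : z ∈ W
          · exact Or.inl hz
          · refine Or.inr (Set.mem_iUnion₂.mpr ⟨irreducibleComponent z,
              ⟨irreducibleComponent_mem_irreducibleComponents z, fun e => hz ?_⟩,
              mem_irreducibleComponent⟩)
            rw [← Set.mem_singleton_iff.mp e]
            exact mem_irreducibleComponent
      rw [this, isOpen_compl_iff]
      exact NoetherianSpace.finite_irreducibleComponents.sdiff.isClosed_biUnion
        fun V hV => isClosed_of_mem_irreducibleComponents V hV.1
    have huniv : W = Set.univ := IsClopen.eq_univ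
      ⟨isClosed_of_mem_irreducibleComponents W hW, hopen⟩ ⟨x, mem_irreducibleComponent⟩
    rw [irreducibleSpace_def]
    rw [Set.top_eq_univ, ← huniv]
    exact hW.1
  exact isIntegral_of_irreducibleSpace_of_isReduced X

end FermatLib.AV.Tors
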