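import Fermat.Agent.AV.Tors.Cartier

/-!
# Points are determined by their values, tautological points, rational points
-/

set_option autoImplicit false

noncomputable section

universe u

open CategoryTheory CategoryTheory.Limits AlgebraicGeometry IsLocalRing TopologicalSpace
  NeronModelInfra GoodReductionJacobian

namespace FermatLib.AV.Tors.AVData

variable {K : Type u} [Field K] {g : ℕ} (A : AVData K g)
variable {R S : Type u} [CommRing R] [Algebra K R] [IsLocalRing R]
  [CommRing S] [Algebra K S] [IsLocalRing S]

/-- The homomorphism out of a local ring given by a point centred at a generalisation. -/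
def stalkTo (p : A.Pt R) (c : A.X) (h : A.centre p ⤳ c) : A.X.presheaf.stalk c →+* R :=
  (A.stalkEval p).comp (A.X.presheaf.stalkSpecializes h).hom

theorem stalkTo_apply (p : A.Pt R) (c : A.X) (h : A.centre p ⤳ c) (s : A.X.presheaf.stalk c) :
    A.stalkTo p c h s = A.evalAt p (algebraMap _ A.FA s) := by
  rw [← A.algebraMap_stalkSpecializes h s, evalAt_algebraMap_stalk]
  rfl

theorem coe_eq_stalkTo (p : A.Pt R) (c : A.X) (h : A.centre p ⤳ c) :
    p.1 = Spec.map (CommRingCat.ofHom (A.stalkTo p c h)) ≫ A.X.fromSpecStalk c := by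
  have e : CommRingCat.ofHom (A.stalkTo p c h) =
      A.X.presheaf.stalkSpecializes h ≫ Scheme.stalkClosedPointTo p.1 := rfl
  rw [e, Spec.map_comp, Category.assoc, Scheme.SpecMap_stalkSpecializes_fromSpecStalk]
  exact (Scheme.Spec_stalkClosedPointTo_fromSpecStalk p.1).symm

/-- Two points centred at generalisations of `c` agree if they agree on the local ring of `c`. -/
theorem pt_ext {p q : A.Pt R} (c : A.X) (hp : A.centre p ⤳ c) (hq : A.centre q ⤳ c)
    (H : ∀ z ∈ A.localRing c, A.evalAt p z = A.evalAt q z) : p = q := by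
  have e : A.stalkTo p c hp = A.stalkTo q c hq := RingHom.ext fun s => by
    rw [stalkTo_apply, stalkTo_apply]
    exact H _ ⟨s, rfl⟩
  refine Subtype.ext ?_
  rw [A.coe_eq_stalkTo p c hp, A.coe_eq_stalkTo q c hq, e]

theorem fromSpecStalk_str (c : A.X) :
    A.X.fromSpecStalk c ≫ A.str = A.base (A.X.presheaf.stalk c) := by
  rw [← Scheme.SpecMap_stalkMap_fromSpecStalk, Spec.fromSpecStalk_eq, ← Spec.map_comp,
    Category.assoc]
  exact congrArg (fun m => Spec.map ((Scheme.ΓSpecIso (CommRingCat.of K)).inv ≫ m))
    (Scheme.Hom.germ_stalkMap A.str ⊤ c trivial)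

/-- The tautological point with values in a local ring. -/
def taut (c : A.X) : A.Pt (A.X.presheaf.stalk c) :=
  ⟨A.X.fromSpecStalk c, A.fromSpecStalk_str c⟩

@[simp]
theorem centre_taut (c : A.X) : A.centre (A.taut c) = c :=
  Scheme.fromSpecStalk_closedPoint

theorem stalkSpecializes_cancel {x y : A.X} (e : y = x) (h₁ : y ⤳ x) (h₂ : x ⤳ y)
    (s : A.X.presheaf.stalk x) :
    (A.X.presheaf.stalkSpecializes h₁ ≫ A.X.presheaf.stalkSpecializes h₂) s = s := by
  subst e
  simp

theorem evalAt_taut (c : A.X) (s : A.X.presheaf.stalk c) :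
    A.evalAt (A.taut c) (algebraMap _ A.FA s) = s := by
  have h : c ⤳ A.centre (A.taut c) := specializes_of_eq (A.centre_taut c).symm
  have h' : A.centre (A.taut c) ⤳ c := specializes_of_eq (A.centre_taut c)
  rw [← A.algebraMap_stalkSpecializes h' s, evalAt_algebraMap_stalk]
  show (A.X.presheaf.stalkSpecializes h' ≫ Scheme.stalkClosedPointTo (A.X.fromSpecStalk c)) s = s
  rw [Scheme.stalkClosedPointTo_fromSpecStalk, TopCat.Presheaf.stalkCongr_hom]
  exact A.stalkSpecializes_cancel (A.centre_taut c) h' h s

/-- The generic point, with values in the function field. -/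
abbrev genPt : A.Pt A.FA := A.taut (genericPoint A.X)

theorem centre_genPt : A.centre A.genPt = genericPoint A.X := A.centre_taut _

theorem evalAt_genPt (z : A.FA) : A.evalAt A.genPt z = z := by
  have h : (stalkFunctionFieldAlgebra A.X (genericPoint A.X)).algebraMap z = z := by
    show A.X.presheaf.stalkSpecializes _ z = z
    rw [TopCat.Presheaf.stalkSpecializes_refl]
    rfl
  exact (congrArg (A.evalAt A.genPt) h.symm).trans (A.evalAt_taut _ z)

theorem mem_localRing_centre_genPt (z : A.FA) : z ∈ A.localRing (A.centre A.genPt) := by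
  rw [centre_genPt, localRing_genericPoint]
  exact Algebra.mem_top

theorem centre_map_field (φ : A.FA →ₐ[K] A.FA) :
    A.centre (A.map φ A.genPt) = genericPoint A.X :=
  have : IsLocalHom φ.toRingHom := ⟨fun a ha => isUnit_iff_ne_zero.mpr fun h => by
    simp [h] at ha⟩
  (A.centre_map φ A.genPt).trans A.centre_genPt

theorem evalAt_map_genPt (φ : A.FA →ₐ[K] A.FA) (z : A.FA) :
    A.evalAt (A.map φ A.genPt) z = φ z := by
  rw [A.evalAt_map φ _ (A.mem_localRing_centre_genPt z), evalAt_genPt]

section Rational

theorem isClosed_centre [IsAlgClosed K] (x : A.Pt K) : IsClosed {A.centre x} :=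
  (pointEquivClosedPoint A.str ⟨x.1, x.2.trans A.base_self⟩).2

theorem centre_injective [IsAlgClosed K] :
    Function.Injective fun x : A.Pt K => A.centre x := fun x y h =>
  Subtype.ext (ext_of_apply_closedPoint_eq A.str (x.2.trans A.base_self)
    (y.2.trans A.base_self) h)

theorem exists_centre_eq [IsAlgClosed K] {c : A.X} (hc : IsClosed {c}) :
    ∃ x : A.Pt K, A.centre x = c :=
  ⟨⟨pointOfClosedPoint A.str c hc, (pointOfClosedPoint_comp A.str c hc).trans A.base_self.symm⟩,
    pointOfClosedPoint_apply A.str c hc _⟩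

theorem map_ofId_injective [IsAlgClosed K] (L : Type u) [Field L] [Algebra K L] :
    Function.Injective (A.map (Algebra.ofId K L)) := fun x y h => by
  refine A.centre_injective ?_
  show A.centre x = A.centre y
  have : IsLocalHom (Algebra.ofId K L).toRingHom :=
    ⟨fun a ha => isUnit_iff_ne_zero.mpr fun e => by simp [e] at ha⟩
  rw [← A.centre_map (Algebra.ofId K L) x, h, A.centre_map]

end Rational

end FermatLib.AV.Tors.AVData

namespace FermatLib.AV.Tors.DomEndo

variable {K : Type u} [Field K] {g : ℕ} {A : AVData K g}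

theorem centre_act_genPt (φ : DomEndo A) : A.centre (φ.act A.genPt) = genericPoint A.X := by
  rw [φ.centre_act, A.centre_genPt, φ.map_generic]

/-- The action on the generic point is the induced map of function fields. -/
theorem act_genPt (φ : DomEndo A) : φ.act A.genPt = A.map φ.comap A.genPt := by
  refine A.pt_ext (genericPoint A.X) (specializes_of_eq φ.centre_act_genPt)
    (specializes_of_eq (A.centre_map_field _)) fun z _ => ?_
  rw [A.evalAt_map_genPt, φ.evalAt_act _ (by
    rw [centre_act_genPt, AVData.localRing_genericPoint]; exact Algebra.mem_top),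
    AVData.evalAt_genPt]

theorem comap_comap_of_act (φ ψ : DomEndo A) (z : A.FA) :
    ψ.comap (φ.comap z) = A.evalAt (φ.act (ψ.act A.genPt)) z := by
  rw [act_genPt ψ, ← φ.map_act, act_genPt φ, A.map_map, A.evalAt_map_genPt]
  rfl

end FermatLib.AV.Tors.DomEndo
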