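import Fermat.Agent.AV.Tors.Cartier
import Fermat.Agent.AV.Tors.Alg.RegularUFD
import Fermat.Agent.AV.Tors.Geom.SmoothChart
import Fermat.Agent.AV.Tors.Geom.PointExt

/-!
# Local coordinates and existence of divisors
-/

set_option autoImplicit false

noncomputable section

universe u

open CategoryTheory AlgebraicGeometry IsLocalRing TopologicalSpace

namespace FermatLib.AV.Tors

variable {K : Type u} [Field K] [IsAlgClosed K] {g : ℕ} (A : AVData K g)

theorem exists_isCoordinates (x : A.Pt K) :
    IsNoetherianRing (A.X.presheaf.stalk (A.centre x)) ∧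
      ∃ t : Fin g → A.X.presheaf.stalk (A.centre x), IsCoordinates (K := K) t :=
  have h := exists_isCoordinates_stalk A.str g (A.centre x) (A.isClosed_centre x) fun _ => rfl
  ⟨h.1, h.2.2⟩

theorem essFiniteType_stalk (x : A.Pt K) :
    Algebra.EssFiniteType K (A.X.presheaf.stalk (A.centre x)) :=
  (exists_isCoordinates_stalk A.str g (A.centre x) (A.isClosed_centre x) fun _ => rfl).2.1

/-- Every element of the function field is algebraic over the field of the coordinates. -/
theorem exists_polynomial_relation (x : A.Pt K) {t : Fin g → A.X.presheaf.stalk (A.centre x)}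
    (ht : IsCoordinates (K := K) t) (z : A.FA) :
    ∃ Φ : Polynomial (MvPolynomial (Fin g) K), Φ ≠ 0 ∧
      Φ.eval₂ ((algebraMap (A.X.presheaf.stalk (A.centre x)) A.FA).comp
        (MvPolynomial.aeval (R := K) t).toRingHom) z = 0 := by
  have := essFiniteType_stalk A x
  have := (exists_isCoordinates A x).1
  let P := MvPolynomial (Fin g) K
  let O := A.X.presheaf.stalk (A.centre x)
  let : Algebra P O := (MvPolynomial.aeval (R := K) t).toRingHom.toAlgebra
  have : IsScalarTower K P O := .of_algebraMap_eq fun c => ((MvPolynomial.aeval t).commutes c).symm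
  have : Algebra.FormallyUnramified P O := ht.formallyUnramified fun i => MvPolynomial.aeval_X t i
  let : Algebra P A.FA := ((algebraMap O A.FA).comp (algebraMap P O)).toAlgebra
  have : IsScalarTower P O A.FA := .of_algebraMap_eq fun _ => rfl
  have hinj : Function.Injective (algebraMap P A.FA) :=
    (IsFractionRing.injective O A.FA).comp ht.aeval_injective
  have : FaithfulSMul P A.FA := (faithfulSMul_iff_algebraMap_injective P A.FA).mpr hinj
  let L := FractionRing P
  let : Algebra L A.FA := FractionRing.liftAlgebra P A.FA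
  have : IsScalarTower P L A.FA := FractionRing.isScalarTower_liftAlgebra P A.FA
  have : Algebra.FormallyUnramified O A.FA :=
    Algebra.FormallyUnramified.of_isLocalization (nonZeroDivisors O)
  have : Algebra.FormallyUnramified P A.FA := .comp P O A.FA
  have : Algebra.EssFiniteType P O := Algebra.EssFiniteType.of_comp K P O
  have : Algebra.EssFiniteType O A.FA :=
    Algebra.EssFiniteType.of_isLocalization A.FA (nonZeroDivisors O)
  have : Algebra.EssFiniteType P A.FA := Algebra.EssFiniteType.comp P O A.FA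
  have : Algebra.EssFiniteType L A.FA := Algebra.EssFiniteType.of_comp P L A.FA
  have : Algebra.FormallyUnramified L A.FA := .of_restrictScalars P L A.FA
  have : Module.Finite L A.FA := Algebra.FormallyUnramified.finite_of_free L A.FA
  have hz : IsAlgebraic L z := Algebra.IsAlgebraic.isAlgebraic z
  obtain ⟨Φ, hΦ, h⟩ := (IsFractionRing.isAlgebraic_iff P L A.FA).mpr hz
  exact ⟨Φ, hΦ, h⟩

/-- Near a rational point the denominators of finitely many functions have one equation. -/
theorem exists_local_denominator {ι : Type u} [Finite ι] (f : ι → A.FA) (x : A.Pt K) :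
    ∃ (U : A.X.Opens) (h : A.FA), A.centre x ∈ U ∧ h ≠ 0 ∧ ∀ y ∈ U,
      h ∈ A.localRing y ∧ (∀ i, h * f i ∈ A.localRing y) ∧
      ∀ z ∈ A.localRing y, (∀ i, z * f i ∈ A.localRing y) → z * h⁻¹ ∈ A.localRing y := by
  obtain ⟨_, t, ht⟩ := exists_isCoordinates A x
  have := ht.uniqueFactorizationMonoid
  obtain ⟨h₀, hh₀, hh₀'⟩ := exists_denominator_generator
    (R := A.X.presheaf.stalk (A.centre x)) f
  let h : A.FA := algebraMap _ A.FA h₀
  have hopen : ∀ z : A.FA, z ∈ A.localRing (A.centre x) →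
      ∀ᶠ y in nhds (A.centre x), z ∈ A.localRing y := by
    rintro _ ⟨s, rfl⟩
    obtain ⟨U, hU, s', rfl⟩ := A.X.presheaf.exists_germ_eq s
    filter_upwards [U.isOpen.mem_nhds hU] with y hy
    have : Nonempty U := ⟨⟨_, hU⟩⟩
    have e := A.X.algebraMap_germ_eq_germToFunctionField hU s'
    show algebraMap _ A.FA _ ∈ _
    rw [e]
    exact A.germ_mem_localRing hy s'
  obtain ⟨V, hV, hxV, -⟩ := exists_standardSmooth_chart A.str g (A.centre x)
  have : Nonempty V := ⟨⟨_, hxV⟩⟩
  have : IsLocallyNoetherian A.X := LocallyOfFiniteType.isLocallyNoetherian A.str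
  have : IsNoetherianRing Γ(A.X, V) := IsLocallyNoetherian.component_noetherian ⟨V, hV⟩
  let R := Γ(A.X, V)
  let J : Ideal R :=
    { carrier := {a | ∀ i, algebraMap R A.FA a * f i ∈ (algebraMap R A.FA).range}
      zero_mem' := fun i => by simp
      add_mem' := fun ha hb i => by rw [map_add, add_mul]; exact add_mem (ha i) (hb i)
      smul_mem' := fun c a ha i => by
        rw [smul_eq_mul, map_mul, mul_assoc]
        exact mul_mem ⟨c, rfl⟩ (ha i) }
  obtain ⟨G, hG⟩ := IsNoetherian.noetherian J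
  have hfrac : ∀ (y) (_ : y ∈ V), ∀ z ∈ A.localRing y, ∃ (r s : R), IsUnit
      (A.X.presheaf.germ V y ‹_› s) ∧ z * algebraMap R A.FA s = algebraMap R A.FA r := by
    rintro y hy _ ⟨o, rfl⟩
    let : Algebra R (A.X.presheaf.stalk y) := (A.X.presheaf.germ V y hy).hom.toAlgebra
    have := hV.isLocalization_stalk ⟨y, hy⟩
    obtain ⟨r, s, rfl⟩ :=
      IsLocalization.exists_mk'_eq (hV.primeIdealOf ⟨y, hy⟩).asIdeal.primeCompl o
    refine ⟨r, s, IsLocalization.map_units _ s, ?_⟩
    show algebraMap _ A.FA _ * _ = _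
    have e : ∀ a : R, algebraMap R A.FA a =
        algebraMap (A.X.presheaf.stalk y) A.FA (algebraMap R _ a) := fun a =>
      (A.X.algebraMap_germ_eq_germToFunctionField hy a).symm
    rw [e, e, ← map_mul, IsLocalization.mk'_spec]
  have hreg : ∀ y ∈ V, ∀ a : R, algebraMap R A.FA a ∈ A.localRing y := fun y hy a =>
    A.germ_mem_localRing hy a
  have hGJ : ∀ a ∈ G, algebraMap R A.FA a * h⁻¹ ∈ A.localRing (A.centre x) := by
    intro a ha
    have ha' : a ∈ J := hG ▸ Ideal.subset_span ha
    obtain ⟨o, ho⟩ := hreg _ hxV a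
    replace ho : algebraMap (A.X.presheaf.stalk (A.centre x)) A.FA o = algebraMap R A.FA a := ho
    obtain ⟨q, hq⟩ := (hh₀' o).mp fun i => by
      obtain ⟨c, hc⟩ := ha' i
      obtain ⟨o', ho'⟩ := hreg _ hxV c
      exact ⟨o', ho'.trans (by rw [hc, ho])⟩
    refine ⟨q, ?_⟩
    show algebraMap _ A.FA q = _
    rw [← ho, hq, map_mul, mul_comm, ← mul_assoc, inv_mul_cancel₀, one_mul]
    exact (map_ne_zero_iff _ (IsFractionRing.injective _ A.FA)).mpr hh₀
  have hhf : ∀ i, h * f i ∈ A.localRing (A.centre x) := fun i => by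
    obtain ⟨o, ho⟩ := (hh₀' h₀).mpr dvd_rfl i
    exact ⟨o, ho⟩
  obtain ⟨U, hU, hUo, hxU⟩ := eventually_nhds_iff.mp
    ((V.isOpen.eventually_mem hxV).and ((hopen h ⟨h₀, rfl⟩).and
      ((Filter.eventually_all.mpr fun i => hopen _ (hhf i)).and
        ((Filter.eventually_all_finset G).mpr fun a ha => hopen _ (hGJ a ha)))))
  refine ⟨⟨U, hUo⟩, h, hxU,
    (map_ne_zero_iff _ (IsFractionRing.injective _ A.FA)).mpr hh₀, fun y hy => ?_⟩
  obtain ⟨hyV, hyh, hyf, hyG⟩ := hU y hy
  refine ⟨hyh, hyf, fun z hz hzf => ?_⟩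
  obtain ⟨r, s, hs, hrs⟩ := hfrac y hyV z hz
  choose r' s' hs' hrs' using fun i => hfrac y hyV _ (hzf i)
  have := Fintype.ofFinite ι
  classical
  let S : R := s * ∏ i, s' i
  have hS : r * ∏ i, s' i ∈ J := fun i => ⟨r' i * s * ∏ j ∈ Finset.univ.erase i, s' j, by
    rw [← Finset.mul_prod_erase _ s' (Finset.mem_univ i)]
    simp only [map_mul]
    rw [← hrs' i, ← hrs]
    ring⟩
  have hJ : ∀ a ∈ J, algebraMap R A.FA a * h⁻¹ ∈ A.localRing y := by
    intro a ha
    rw [← hG] at ha
    refine Submodule.span_induction (fun b hb => hyG b hb) (by simp)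
      (fun b c _ _ hb hc => by rw [map_add, add_mul]; exact add_mem hb hc)
      (fun c b _ hb => by
        rw [smul_eq_mul, map_mul, mul_assoc]
        exact mul_mem (hreg y hyV c) hb) ha
  have hSu : IsUnit (A.X.presheaf.germ V y hyV S) := by
    simp only [S, map_mul, map_prod]
    exact hs.mul (IsUnit.prod_univ_iff.mpr hs')
  obtain ⟨w, hw⟩ := hSu.exists_right_inv
  have e : algebraMap R A.FA S = algebraMap (A.X.presheaf.stalk y) A.FA
      (A.X.presheaf.germ V y hyV S) :=
    (A.X.algebraMap_germ_eq_germToFunctionField hyV S).symm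
  have key : z * h⁻¹ = algebraMap _ A.FA w * (algebraMap R A.FA (r * ∏ i, s' i) * h⁻¹) := by
    have h1 : algebraMap (A.X.presheaf.stalk y) A.FA w * algebraMap R A.FA S = 1 := by
      rw [e, ← map_mul, mul_comm, hw, map_one]
    simp only [S, map_mul] at h1 ⊢
    rw [← hrs]
    linear_combination -(z * h⁻¹) * h1
  rw [key]
  exact mul_mem ⟨w, rfl⟩ (hJ _ hS)

/-- Finitely many functions are sections of some effective divisor. -/
theorem exists_cartierDiv {ι : Type u} [Finite ι] (f : ι → A.FA) :
    ∃ D : CartierDiv A, (1 : A.FA) ∈ D.sections ∧ ∀ i, f i ∈ D.sections := by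
  have : CompactSpace A.X := QuasiCompact.compactSpace_of_compactSpace A.str
  have hpick : ∀ y : A.X, ∃ x : A.Pt K, y ⤳ A.centre x := fun y => by
    obtain ⟨c, hc, hc'⟩ := (isClosed_closure (s := {y})).exists_closed_singleton
      (Set.singleton_nonempty y).closure
    obtain ⟨x, rfl⟩ := A.exists_centre_eq hc'
    exact ⟨x, specializes_iff_mem_closure.mpr hc⟩
  choose U h hxU hne hD using exists_local_denominator A f
  choose pick hp using hpick
  have hyU : ∀ y, y ∈ U (pick y) := fun y => (hp y).mem_open (U _).isOpen (hxU _)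
  refine ⟨⟨fun y => h (pick y), fun y => hne _, fun x => ⟨U (pick x), hyU x, fun y hy => ?_⟩⟩,
    fun y => ?_, fun i y => ?_⟩
  · obtain ⟨a₁, a₂, a₃⟩ := hD _ y hy
    obtain ⟨b₁, b₂, b₃⟩ := hD _ y (hyU y)
    refine ⟨div_ne_zero (hne _) (hne _), ?_, ?_⟩
    · rw [div_eq_mul_inv]; exact b₃ _ a₁ a₂
    · rw [inv_div, div_eq_mul_inv]; exact a₃ _ b₁ b₂
  · show 1 * h (pick y) ∈ _
    rw [one_mul]
    exact (hD _ y (hyU y)).1
  · show f i * h (pick y) ∈ _
    rw [mul_comm]
    exact (hD _ y (hyU y)).2.1 i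

end FermatLib.AV.Tors
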