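import Fermat.Agent.AV.Tors.Geom.Params

/-!
# Points with values in square zero extensions: multiplication by `n` on the tangent space
-/

set_option autoImplicit false

noncomputable section

universe u

open CategoryTheory AlgebraicGeometry IsLocalRing

namespace FermatLib.AV.Tors

variable {K : Type u} [Field K] {R : Type u} [CommRing R] [Algebra K R]
  (ρ : R →ₐ[K] K)

theorem isUnit_iff_of_sqZero (hρ : ∀ a b, ρ a = 0 → ρ b = 0 → a * b = 0) (a : R) :
    IsUnit a ↔ ρ a ≠ 0 := by
  refine ⟨fun h => (h.map ρ).ne_zero, fun h => ?_⟩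
  set e : R := algebraMap K R (ρ a)
  have hx : ρ (a - e) = 0 := by simp [e]
  set u : R := algebraMap K R (ρ a)⁻¹
  have hu : u * e = 1 := by rw [← map_mul, inv_mul_cancel₀ h, map_one]
  refine IsUnit.of_mul_eq_one (u - u ^ 2 * (a - e)) ?_
  have h2 := hρ _ _ hx hx
  linear_combination -(u ^ 2) * h2 + hu - (a - e) * u * hu

theorem isLocalRing_of_sqZero [Nontrivial R] (hρ : ∀ a b, ρ a = 0 → ρ b = 0 → a * b = 0) :
    IsLocalRing R := by
  refine IsLocalRing.of_isUnit_or_isUnit_one_sub_self fun a => ?_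
  rw [isUnit_iff_of_sqZero ρ hρ, isUnit_iff_of_sqZero ρ hρ, map_sub, map_one]
  by_cases h : ρ a = 0
  · exact Or.inr (by simp [h])
  · exact Or.inl h

theorem isLocalHom_of_sqZero {S : Type u} [CommRing S] [Algebra K S] (ρ' : S →ₐ[K] K)
    (hρ : ∀ a b, ρ a = 0 → ρ b = 0 → a * b = 0) (φ : R →ₐ[K] S)
    (h : ρ'.comp φ = ρ) : IsLocalHom φ.toRingHom :=
  ⟨fun a ha => (isUnit_iff_of_sqZero ρ hρ a).mpr (by
    rw [← h]; exact (ha.map ρ').ne_zero)⟩

variable {g : ℕ} (A : AVData K g)

namespace AVData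

/-- The image of the origin. -/
abbrev orig : A.X := A.centre (0 : A.Pt K)

theorem centre_eq_orig [IsLocalRing R] (p : A.Pt R) (hp : A.map ρ p = 0) :
    A.centre p = A.orig := by
  have : IsLocalHom ρ.toRingHom := IsLocalHom.of_surjective ρ.toRingHom
    fun c => ⟨algebraMap K R c, ρ.commutes c⟩
  rw [← A.centre_map ρ p, hp]

theorem centre_zero [IsLocalRing R] : A.centre (0 : A.Pt R) = A.orig := by
  have : IsLocalHom (Algebra.ofId K R).toRingHom := ⟨fun a ha => isUnit_iff_ne_zero.mpr fun h => by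
    simp [h] at ha⟩
  rw [← map_zero (A.map (Algebra.ofId K R)), A.centre_map]

theorem evalAt_zero [IsLocalRing R] {z : A.FA} (hz : z ∈ A.localRing A.orig) :
    A.evalAt (0 : A.Pt R) z = algebraMap K R (A.evalAt (0 : A.Pt K) z) := by
  rw [← map_zero (A.map (Algebra.ofId K R)), A.evalAt_map (Algebra.ofId K R) _ hz]
  rfl

/-- The addition is linear on points with values in a square zero extension. -/
theorem evalAt_add_sqZero [IsLocalRing R] (hρ : ∀ a b, ρ a = 0 → ρ b = 0 → a * b = 0)
    (p q : A.Pt R) (hp : A.map ρ p = 0) (hq : A.map ρ q = 0) {z : A.FA}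
    (hz : z ∈ A.localRing A.orig) :
    A.evalAt (p + q) z =
      A.evalAt p z + A.evalAt q z - algebraMap K R (A.evalAt (0 : A.Pt K) z) := by
  let D : Subalgebra K (R × R) :=
    AlgHom.equalizer (ρ.comp (AlgHom.fst K R R)) (ρ.comp (AlgHom.snd K R R))
  have hD : ∀ d : D, ρ d.1.1 = ρ d.1.2 := fun d => d.2
  let π₁ : D →ₐ[K] R := (AlgHom.fst K R R).comp D.val
  let π₂ : D →ₐ[K] R := (AlgHom.snd K R R).comp D.val
  let ρD : D →ₐ[K] K := ρ.comp π₁
  have hρD : ∀ a b, ρD a = 0 → ρD b = 0 → a * b = 0 := fun a b ha hb =>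
    Subtype.ext (Prod.ext (hρ _ _ ha hb) (hρ _ _ (by rw [← hD a]; exact ha)
      (by rw [← hD b]; exact hb)))
  let e : R →ₐ[K] R := (Algebra.ofId K R).comp ρ
  have he : ρ.comp e = ρ := by ext a; simp [e]
  let ι₁ : R →ₐ[K] D := AlgHom.codRestrict ((AlgHom.id K R).prod e) D
    fun a => (AlgHom.congr_fun he a).symm
  let ι₂ : R →ₐ[K] D := AlgHom.codRestrict (e.prod (AlgHom.id K R)) D
    fun a => AlgHom.congr_fun he a
  let σ : D →ₐ[K] R := AlgHom.ofLinearMap
    (π₁.toLinearMap + π₂.toLinearMap - ((Algebra.ofId K R).comp ρD).toLinearMap)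
    (by simp [π₁, π₂, ρD])
    (by
      intro a b
      show π₁ (a * b) + π₂ (a * b) - algebraMap K R (ρD (a * b)) =
        (π₁ a + π₂ a - algebraMap K R (ρD a)) * (π₁ b + π₂ b - algebraMap K R (ρD b))
      simp only [map_mul]
      have h1 : ρ (π₁ a - algebraMap K R (ρD a)) = 0 := by simp [ρD]
      have h2 : ρ (π₂ a - algebraMap K R (ρD a)) = 0 := by simp [ρD, π₁, π₂, hD a]
      have h3 : ρ (π₁ b - algebraMap K R (ρD b)) = 0 := by simp [ρD]
      have h4 : ρ (π₂ b - algebraMap K R (ρD b)) = 0 := by simp [ρD, π₁, π₂, hD b]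
      have e1 := hρ _ _ h1 h4
      have e2 := hρ _ _ h2 h3
      linear_combination -e1 - e2)
  have : Nontrivial D := D.nontrivial
  have : IsLocalRing D := isLocalRing_of_sqZero ρD hρD
  have : IsLocalHom π₁.toRingHom := isLocalHom_of_sqZero ρD ρ hρD π₁ rfl
  have : IsLocalHom π₂.toRingHom := isLocalHom_of_sqZero ρD ρ hρD π₂
    (AlgHom.ext fun d => (hD d).symm)
  have : IsLocalHom σ.toRingHom := isLocalHom_of_sqZero ρD ρ hρD σ (AlgHom.ext fun d => by
    show ρ (π₁ d + π₂ d - algebraMap K R (ρD d)) = ρD d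
    simp [ρD, π₁, π₂, hD d])
  let W : A.Pt D := A.map ι₁ p + A.map ι₂ q
  have hW1 : A.map π₁ W = p := by
    rw [map_add, A.map_map, A.map_map,
      show π₁.comp ι₁ = AlgHom.id K R from rfl, show π₁.comp ι₂ = e from rfl,
      ← A.map_map (Algebra.ofId K R) ρ q, hq, map_zero, A.map_id, add_zero]
  have hW2 : A.map π₂ W = q := by
    rw [map_add, A.map_map, A.map_map,
      show π₂.comp ι₁ = e from rfl, show π₂.comp ι₂ = AlgHom.id K R from rfl,
      ← A.map_map (Algebra.ofId K R) ρ p, hp, map_zero, A.map_id, zero_add]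
  have hσW : A.map σ W = p + q := by
    rw [map_add, A.map_map, A.map_map]
    congr 1
    · rw [show σ.comp ι₁ = AlgHom.id K R from ?_, A.map_id]
      ext a
      show a + e a - algebraMap K R (ρ a) = a
      simp [e]
    · rw [show σ.comp ι₂ = AlgHom.id K R from ?_, A.map_id]
      ext a
      show e a + a - algebraMap K R (ρ (e a)) = a
      simp [e]
  have hc : A.centre W = A.orig := by
    rw [← A.centre_map π₁ W, hW1, A.centre_eq_orig ρ p hp]
  have hz' : z ∈ A.localRing (A.centre W) := hc ▸ hz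
  have hv1 : π₁ (A.evalAt W z) = A.evalAt p z := by rw [← A.evalAt_map π₁ W hz', hW1]
  have hv2 : π₂ (A.evalAt W z) = A.evalAt q z := by rw [← A.evalAt_map π₂ W hz', hW2]
  have hρ1 : ρ (A.evalAt p z) = A.evalAt (0 : A.Pt K) z := by
    rw [← A.evalAt_map ρ p (A.centre_eq_orig ρ p hp ▸ hz), hp]
  calc A.evalAt (p + q) z = σ (A.evalAt W z) := by rw [← A.evalAt_map σ W hz', hσW]
    _ = π₁ (A.evalAt W z) + π₂ (A.evalAt W z) -
          algebraMap K R (ρ (π₁ (A.evalAt W z))) := rfl
    _ = _ := by rw [hv1, hv2, hρ1]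

theorem evalAt_nsmul_sqZero [IsLocalRing R] (hρ : ∀ a b, ρ a = 0 → ρ b = 0 → a * b = 0)
    (p : A.Pt R) (hp : A.map ρ p = 0) (k : ℕ) {z : A.FA}
    (hz : z ∈ A.localRing A.orig) (hz0 : A.evalAt (0 : A.Pt K) z = 0) :
    A.evalAt (k • p) z = k * A.evalAt p z := by
  induction k with
  | zero => rw [zero_nsmul, A.evalAt_zero hz, hz0]; simp
  | succ k ih =>
    rw [succ_nsmul, A.evalAt_add_sqZero ρ hρ _ p (by rw [map_nsmul, hp, smul_zero]) hp hz, ih,
      hz0]
    push_cast
    simp [add_mul]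

theorem evalAt_eq_zero_iff_not_isUnit (x : A.Pt K) (s : A.X.presheaf.stalk (A.centre x)) :
    A.evalAt x (algebraMap _ A.FA s) = 0 ↔ s ∈ maximalIdeal _ := by
  rw [evalAt_algebraMap_stalk]
  exact ⟨fun h hs => (hs.map (A.stalkEval x)).ne_zero h, fun h => by
    by_contra h'
    exact h ((isUnit_map_iff (A.stalkEval x) s).mp (isUnit_iff_ne_zero.mpr h'))⟩

variable [IsAlgClosed K]

/-- Multiplication by `n` at the origin: an injective endomorphism of the local ring whose image
of the maximal ideal generates it. -/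
theorem exists_nsmulLocal (n : ℕ) (hn : (n : K) ≠ 0) :
    ∃ ψ : A.X.presheaf.stalk A.orig →ₐ[K] A.X.presheaf.stalk A.orig,
      (∀ s, A.evalAt (n • A.taut A.orig) (algebraMap _ A.FA s) = ψ s) ∧
      A.centre (n • A.taut A.orig) = A.orig ∧
      Function.Injective ψ ∧
      Ideal.span (ψ '' maximalIdeal (A.X.presheaf.stalk A.orig)) = maximalIdeal _ := by
  let O := A.X.presheaf.stalk A.orig
  let p₀ := A.taut A.orig
  obtain ⟨hN, t, ht⟩ := exists_isCoordinates A (0 : A.Pt K)
  let ρ₀ : O →ₐ[K] K :=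
    { A.stalkEval (0 : A.Pt K) with commutes' := A.stalkEval_algebraMap 0 }
  have hρ₀ : ∀ s, ρ₀ s = A.evalAt (0 : A.Pt K) (algebraMap _ A.FA s) := fun s =>
    (A.evalAt_algebraMap_stalk (0 : A.Pt K) s).symm
  have hker : ∀ s, ρ₀ s = 0 ↔ s ∈ maximalIdeal O := fun s => by
    rw [hρ₀]; exact A.evalAt_eq_zero_iff_not_isUnit 0 s
  have : IsLocalHom ρ₀.toRingHom := IsLocalHom.of_surjective ρ₀.toRingHom
    fun c => ⟨algebraMap K O c, ρ₀.commutes c⟩
  have hρp : A.map ρ₀ p₀ = 0 := by
    refine A.pt_ext A.orig (specializes_of_eq ((A.centre_map ρ₀ p₀).trans (A.centre_taut _)))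
      (specializes_refl _) ?_
    rintro _ ⟨s, rfl⟩
    rw [A.evalAt_map ρ₀ p₀ (by rw [centre_taut]; exact ⟨s, rfl⟩)]
    exact (congrArg ρ₀ (A.evalAt_taut _ s)).trans (hρ₀ s)
  let q := n • p₀
  have hq : A.centre q = A.orig :=
    A.centre_eq_orig ρ₀ q (by rw [map_nsmul, hρp, smul_zero])
  have hmemq : ∀ s : O, algebraMap O A.FA s ∈ A.localRing (A.centre q) := fun s =>
    hq.symm ▸ (⟨s, rfl⟩ : _ ∈ A.localRing A.orig)
  let ψ : O →ₐ[K] O :=
    { toFun := fun s => A.evalAt q (algebraMap _ A.FA s)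
      map_one' := by rw [map_one, evalAt_one]
      map_mul' := fun a b => by rw [map_mul, A.evalAt_mul (hmemq a) (hmemq b)]
      map_zero' := by rw [map_zero, ← map_zero (algebraMap K A.FA), evalAt_algebraMap, map_zero]
      map_add' := fun a b => by rw [map_add, A.evalAt_add (hmemq a) (hmemq b)]
      commutes' := fun c => by
        show A.evalAt q (algebraMap O A.FA (algebraMap K O c)) = algebraMap K O c
        rw [← IsScalarTower.algebraMap_apply K O A.FA, evalAt_algebraMap] }
  have hsq : ∀ s ∈ maximalIdeal O, ψ s - n * s ∈ maximalIdeal O ^ 2 := by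
    intro s hs
    let π : O →ₐ[K] O ⧸ maximalIdeal O ^ 2 := Ideal.Quotient.mkₐ K _
    have : Nontrivial (O ⧸ maximalIdeal O ^ 2) :=
      Ideal.Quotient.nontrivial_iff.mpr fun h => (maximalIdeal.isMaximal O).ne_top
        (eq_top_iff.mpr (h ▸ Ideal.pow_le_self two_ne_zero))
    have : IsLocalHom π.toRingHom := IsLocalHom.of_surjective π.toRingHom
      Ideal.Quotient.mk_surjective
    have : IsLocalRing (O ⧸ maximalIdeal O ^ 2) :=
      IsLocalRing.of_surjective' π.toRingHom Ideal.Quotient.mk_surjective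
    let ρ₂ : (O ⧸ maximalIdeal O ^ 2) →ₐ[K] K := Ideal.Quotient.liftₐ _ ρ₀ fun a ha =>
      (hker a).mpr (Ideal.pow_le_self two_ne_zero ha)
    have hρ₂ : ∀ a b, ρ₂ a = 0 → ρ₂ b = 0 → a * b = 0 := by
      intro a b ha hb
      obtain ⟨a, rfl⟩ := Ideal.Quotient.mk_surjective a
      obtain ⟨b, rfl⟩ := Ideal.Quotient.mk_surjective b
      rw [← map_mul, Ideal.Quotient.eq_zero_iff_mem, pow_two]
      exact Ideal.mul_mem_mul ((hker a).mp ha) ((hker b).mp hb)
    have hp2 : A.map ρ₂ (A.map π p₀) = 0 := by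
      rw [A.map_map, show ρ₂.comp π = ρ₀ from rfl, hρp]
    have h := A.evalAt_nsmul_sqZero ρ₂ hρ₂ (A.map π p₀) hp2 n (z := algebraMap O A.FA s)
      ⟨s, rfl⟩ ((hρ₀ s).symm.trans ((hker s).mpr hs))
    rw [← map_nsmul, A.evalAt_map π q (hmemq s),
      A.evalAt_map π p₀ (by rw [centre_taut]; exact ⟨s, rfl⟩), A.evalAt_taut] at h
    refine Ideal.Quotient.eq.mp ?_
    rw [map_mul, map_natCast]
    exact h
  let N := Ideal.span (ψ '' maximalIdeal O)
  have hNle : N ≤ maximalIdeal O := by
    rw [Ideal.span_le]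
    rintro _ ⟨s, hs, rfl⟩
    have := add_mem (Ideal.pow_le_self two_ne_zero (hsq s hs))
      (Ideal.mul_mem_left _ (n : O) hs)
    rwa [sub_add_cancel] at this
  have hgen : N = maximalIdeal O := by
    refine hNle.antisymm ?_
    refine Submodule.le_of_le_smul_of_le_jacobson_bot (I := maximalIdeal O)
      (IsNoetherian.noetherian _) (IsLocalRing.maximalIdeal_le_jacobson _) fun s hs => ?_
    have hu : (algebraMap K O (n : K)⁻¹) * (n : O) = 1 := by
      rw [← map_natCast (algebraMap K O), ← map_mul, inv_mul_cancel₀ hn, map_one]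
    have : s = algebraMap K O (n : K)⁻¹ * ψ s -
        algebraMap K O (n : K)⁻¹ * (ψ s - n * s) := by
      linear_combination -s * hu
    rw [this]
    refine sub_mem (Submodule.mem_sup_left (Ideal.mul_mem_left _ _ ?_))
      (Submodule.mem_sup_right (Ideal.mul_mem_left _ _ ?_))
    · exact Ideal.subset_span ⟨s, hs, rfl⟩
    · rw [smul_eq_mul, ← pow_two]
      exact hsq s hs
  refine ⟨ψ, fun s => rfl, hq, ?_, hgen⟩
  -- the image is dense
  have hdense : ∀ (k : ℕ) (s : O), ∃ a, s - ψ a ∈ maximalIdeal O ^ k := by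
    intro k
    induction k with
    | zero => exact fun s => ⟨0, by simp⟩
    | succ k ih =>
      intro s
      induction k with
      | zero =>
        refine ⟨algebraMap K O (ρ₀ s), ?_⟩
        rw [pow_one, ← hker, map_sub, ψ.commutes, ρ₀.commutes]
        simp
      | succ k _ =>
        obtain ⟨a, ha⟩ := ih s
        suffices h : ∀ y ∈ maximalIdeal O ^ (k + 1), ∃ b, y - ψ b ∈ maximalIdeal O ^ (k + 1 + 1) by
          obtain ⟨b, hb⟩ := h _ ha
          exact ⟨a + b, by rwa [map_add, ← sub_sub]⟩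
        intro y hy
        rw [← hgen] at hy
        change y ∈ Submodule.span O (ψ '' maximalIdeal O) ^ (k + 1) at hy
        rw [Submodule.span_pow] at hy
        refine Submodule.span_induction (fun w hw => ?_) ⟨0, by simp⟩
          (fun w w' _ _ hw hw' => ?_) (fun c w hw' hw => ?_) hy
        · obtain ⟨l, hl⟩ := Set.mem_pow.mp hw
          choose b _ hb' using fun i => (l i).2
          refine ⟨(List.ofFn b).prod, ?_⟩
          rw [← hl, map_list_prod, List.map_ofFn,
            show (ψ ∘ b) = fun i => ((l i : ψ '' maximalIdeal O) : O) from funext hb', sub_self]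
          exact zero_mem _
        · obtain ⟨b, hb⟩ := hw
          obtain ⟨b', hb'⟩ := hw'
          refine ⟨b + b', ?_⟩
          rw [map_add, add_sub_add_comm]
          exact add_mem hb hb'
        · obtain ⟨b, hb⟩ := hw
          refine ⟨algebraMap K O (ρ₀ c) * b, ?_⟩
          have hc : c - algebraMap K O (ρ₀ c) ∈ maximalIdeal O := by
            rw [← hker, map_sub, ρ₀.commutes]; simp
          have hw2 : w ∈ maximalIdeal O ^ (k + 1) := by
            rw [← hgen]
            show w ∈ Submodule.span O (ψ '' maximalIdeal O) ^ (k + 1)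
            rw [Submodule.span_pow]
            exact hw'
          rw [map_mul, ψ.commutes, smul_eq_mul, show c * w - algebraMap K O (ρ₀ c) * ψ b =
            (c - algebraMap K O (ρ₀ c)) * w + algebraMap K O (ρ₀ c) * (w - ψ b) by ring]
          refine add_mem ?_ (Ideal.mul_mem_left _ _ hb)
          rw [pow_succ' (maximalIdeal O) (k + 1)]
          exact Ideal.mul_mem_mul hc hw2
  refine (injective_iff_map_eq_zero ψ).mpr fun s hs => ?_
  have : s ∈ ⨅ k, maximalIdeal O ^ k := Submodule.mem_iInf _ |>.mpr fun k => by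
    cases k with
    | zero => simp
    | succ k =>
      have := (ht.finite_jets k).1
      let I := maximalIdeal O ^ (k + 1)
      have hI : I ≤ I.comap ψ := by
        refine le_trans ?_ (Ideal.le_comap_pow ψ (k + 1))
        exact Ideal.pow_right_mono
          (fun a ha => show ψ a ∈ maximalIdeal O from
          hNle (Ideal.subset_span (Set.mem_image_of_mem ψ ha))) (k + 1)
      let ψk : (O ⧸ I) →ₐ[K] (O ⧸ I) := Ideal.quotientMapₐ I ψ hI
      have hsurj : Function.Surjective ψk := by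
        intro b
        obtain ⟨b, rfl⟩ := Ideal.Quotient.mk_surjective b
        obtain ⟨a, ha⟩ := hdense (k + 1) b
        exact ⟨Ideal.Quotient.mk _ a, (Ideal.Quotient.eq.mpr ha).symm⟩
      have hinj : Function.Injective ψk :=
        LinearMap.injective_iff_surjective (f := ψk.toLinearMap) |>.mpr hsurj
      rw [← Ideal.Quotient.eq_zero_iff_mem]
      exact hinj (by
        show Ideal.Quotient.mk I (ψ s) = _
        rw [hs, map_zero, map_zero])
  rwa [Ideal.iInf_pow_eq_bot_of_isLocalRing _ (maximalIdeal.isMaximal O).ne_top,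
    Submodule.mem_bot] at this

end AVData

end FermatLib.AV.Tors
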