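import Fermat.Agent.AV.Tors.Geom.Tangent

/-!
# Translations, inversion and multiplication by `n`
-/

set_option autoImplicit false
set_option linter.unusedSectionVars false

noncomputable section

universe u

open CategoryTheory CategoryTheory.Limits AlgebraicGeometry IsLocalRing TopologicalSpace
  NeronModelInfra GoodReductionJacobian

namespace FermatLib.AV.Tors

variable {K : Type u} [Field K] [IsAlgClosed K] {g : ℕ} (A : AVData K g)

theorem map_generic_of_surjective {X : Scheme.{u}} [IsIntegral X] (h : X ⟶ X)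
    (hs : Function.Surjective h) : h (genericPoint X) = genericPoint X := by
  obtain ⟨y, hy⟩ := hs (genericPoint X)
  have h1 : h (genericPoint X) ⤳ h y := (genericPoint_specializes y).map h.continuous
  rw [hy] at h1
  exact (h1.antisymm (genericPoint_specializes _)).eq

theorem surjective_of_comp_eq_id {X : Scheme.{u}} {h k : X ⟶ X} (e : k ≫ h = 𝟙 X) :
    Function.Surjective h := fun y => ⟨k y, by
  rw [← Scheme.Hom.comp_apply, e]; rfl⟩

omit [IsAlgClosed K] in
theorem inv_natural' {X : Scheme.{u}} {f : X ⟶ Spec (CommRingCat.of K)}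
    (L : RelativeGroupLaw K f) {T T' : Scheme.{u}} (t : T ⟶ Spec (CommRingCat.of K))
    (t' : T' ⟶ Spec (CommRingCat.of K)) (ψ : T' ⟶ T) (hψ : ψ ≫ t = t') (x : SchemeHomOver t f) :
    schemeHomOverComp ψ hψ (L.inv t x) = L.inv t' (schemeHomOverComp ψ hψ x) := by
  let := L.pointGroup t'
  exact eq_inv_of_mul_eq_one_left ((L.mul_natural t t' ψ hψ _ x).symm.trans
    ((congrArg (schemeHomOverComp ψ hψ) (L.inv_mul_cancel t x)).trans
      (L.one_natural t t' ψ hψ)))

/-- A rational point as a constant point with values in the variety. -/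
def constPt (a : A.Pt K) : SchemeHomOver A.str A.str :=
  schemeHomOverComp A.str (by rw [A.base_self, Category.comp_id]) a

/-- The morphism of translation by a rational point. -/
def translatePt (a : A.Pt K) : SchemeHomOver A.str A.str :=
  A.law.mul A.str RelativeGroupLaw.idPoint (constPt A a)

theorem translatePt_comp (a : A.Pt K) : (translatePt A (-a)).1 ≫ (translatePt A a).1 = 𝟙 A.X := by
  suffices h : schemeHomOverComp (translatePt A (-a)).1 (translatePt A (-a)).2 (translatePt A a) =
      RelativeGroupLaw.idPoint from congrArg Subtype.val h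
  have hc : schemeHomOverComp (translatePt A (-a)).1 (translatePt A (-a)).2 (constPt A a) =
      constPt A a := Subtype.ext (by
    show (translatePt A (-a)).1 ≫ A.str ≫ a.1 = A.str ≫ a.1
    rw [← Category.assoc, (translatePt A (-a)).2])
  have hid : schemeHomOverComp (translatePt A (-a)).1 (translatePt A (-a)).2
      RelativeGroupLaw.idPoint = translatePt A (-a) := Subtype.ext (Category.comp_id _)
  have h0 : A.law.mul A.str (constPt A (-a)) (constPt A a) = A.law.one A.str := by
    rw [constPt, constPt, ← A.law.mul_natural]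
    show schemeHomOverComp A.str _ (-a + a) = _
    rw [neg_add_cancel]
    exact A.law.one_natural _ _ _ _
  have e := A.law.mul_natural A.str A.str (translatePt A (-a)).1 (translatePt A (-a)).2
    RelativeGroupLaw.idPoint (constPt A a)
  rw [hid, hc] at e
  refine e.trans ?_
  show A.law.mul A.str (A.law.mul A.str RelativeGroupLaw.idPoint (constPt A (-a)))
    (constPt A a) = _
  rw [A.law.mul_assoc, h0, A.law.mul_one]

theorem translatePt_act (a : A.Pt K) (R : Type u) [CommRing R] [Algebra K R] (p : A.Pt R) :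
    schemeHomOverComp p.1 p.2 (translatePt A a) = p + A.map (Algebra.ofId K R) a := by
  rw [translatePt, A.law.mul_natural (t := A.str) (t' := A.base R)]
  show A.law.mul _ _ _ = A.law.mul _ p (A.map (Algebra.ofId K R) a)
  refine congrArg₂ (A.law.mul (A.base R)) (Subtype.ext (Category.comp_id _)) ?_
  · refine Subtype.ext ?_
    show p.1 ≫ A.str ≫ a.1 = _
    rw [← Category.assoc, p.2]
    rfl

theorem exists_negEndo :
    ∃ φ : DomEndo A, ∀ (R : Type u) [CommRing R] [Algebra K R] (p : A.Pt R), φ.act p = -p := by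
  let P : SchemeHomOver A.str A.str := A.law.inv A.str RelativeGroupLaw.idPoint
  have hPP : P.1 ≫ P.1 = 𝟙 A.X := by
    suffices h : schemeHomOverComp P.1 P.2 P = RelativeGroupLaw.idPoint from congrArg Subtype.val h
    rw [inv_natural' A.law, show schemeHomOverComp P.1 P.2 RelativeGroupLaw.idPoint = P from
      Subtype.ext (Category.comp_id _)]
    let := A.law.pointGroup A.str
    exact inv_inv (RelativeGroupLaw.idPoint (f := A.str))
  refine ⟨⟨P.1, P.2, map_generic_of_surjective _ (surjective_of_comp_eq_id hPP)⟩,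
    fun R _ _ p => ?_⟩
  show schemeHomOverComp p.1 p.2 P = A.law.inv (A.base R) p
  rw [inv_natural' A.law]
  exact congrArg _ (Subtype.ext (Category.comp_id _))

theorem exists_translateEndo (a : A.Pt K) :
    ∃ φ : DomEndo A, ∀ (R : Type u) [CommRing R] [Algebra K R] (p : A.Pt R),
      φ.act p = p + A.map (Algebra.ofId K R) a :=
  ⟨⟨(translatePt A a).1, (translatePt A a).2, map_generic_of_surjective _
    (surjective_of_comp_eq_id (translatePt_comp A a))⟩,
    fun R _ _ p => translatePt_act A a R p⟩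

omit [IsAlgClosed K] in
theorem schemeNsmul_act (n : ℕ) (R : Type u) [CommRing R] [Algebra K R] (p : A.Pt R) :
    schemeHomOverComp p.1 p.2 (A.law.nsmul A.str n RelativeGroupLaw.idPoint) = n • p := by
  rw [A.law.nsmul_natural (t := A.str) (t' := A.base R), ← A.nsmul_eq]
  exact congrArg _ (Subtype.ext (Category.comp_id _))

theorem schemeNsmul_genericPoint (n : ℕ) (hn : (n : K) ≠ 0) :
    A.law.schemeNsmul n (genericPoint A.X) = genericPoint A.X := by
  obtain ⟨ψ, hψ, hc, hinj, -⟩ := A.exists_nsmulLocal n hn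
  let O := A.X.presheaf.stalk A.orig
  let ι : O →ₐ[K] A.FA := IsScalarTower.toAlgHom K O A.FA
  have hι : Function.Injective ι := IsFractionRing.injective O A.FA
  let Φ : A.FA →ₐ[K] A.FA := IsFractionRing.liftAlgHom (g := ι.comp ψ) (hι.comp hinj)
  have hgo : genericPoint A.X ⤳ A.orig := genericPoint_specializes _
  have hmap : A.map ι (A.taut A.orig) = A.genPt := by
    refine A.pt_ext A.orig ((A.centre_map_specializes ι _).trans
      (specializes_of_eq (A.centre_taut _))) ((specializes_of_eq A.centre_genPt).trans hgo) ?_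
    rintro _ ⟨s, rfl⟩
    rw [A.evalAt_map ι _ (by rw [AVData.centre_taut]; exact ⟨s, rfl⟩), AVData.evalAt_genPt]
    exact congrArg ι (A.evalAt_taut A.orig s)
  have key : n • A.genPt = A.map Φ A.genPt := by
    rw [← hmap, ← map_nsmul, hmap]
    refine A.pt_ext A.orig ((A.centre_map_specializes ι _).trans (specializes_of_eq hc))
      ((specializes_of_eq (A.centre_map_field Φ)).trans hgo) ?_
    rintro _ ⟨s, rfl⟩
    rw [A.evalAt_map ι _ (by rw [hc]; exact ⟨s, rfl⟩), A.evalAt_map_genPt]
    refine (congrArg ι (hψ s)).trans ?_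
    exact (IsFractionRing.lift_algebraMap (g := (ι.comp ψ).toRingHom) (hι.comp hinj) s).symm
  have e := congrArg A.centre key
  rw [A.centre_map_field, ← schemeNsmul_act A n A.FA A.genPt] at e
  refine Eq.trans ?_ e
  show _ = A.law.schemeNsmul n (A.centre A.genPt)
  rw [A.centre_genPt]

/-- Multiplication by an `n` invertible in `K` is dominant. -/
theorem exists_nsmulEndo (n : ℕ) (hn : (n : K) ≠ 0) :
    ∃ φ : DomEndo A, ∀ (R : Type u) [CommRing R] [Algebra K R] (p : A.Pt R),
      φ.act p = n • p :=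
  ⟨⟨A.law.schemeNsmul n, A.law.schemeNsmul_over n, schemeNsmul_genericPoint A n hn⟩,
    fun R _ _ p => schemeNsmul_act A n R p⟩

variable {A} {n : ℕ} (hn : (n : K) ≠ 0) (φ : DomEndo A)
  (hφ : ∀ (R : Type u) [CommRing R] [Algebra K R] (p : A.Pt R), φ.act p = n • p)

omit [IsAlgClosed K] in
include hφ in
theorem hom_orig_eq : φ.hom A.orig = A.orig := by
  rw [← φ.centre_act (0 : A.Pt K), hφ, smul_zero]

omit [IsAlgClosed K] in
include hφ in
/-- Translations by torsion points fix the image of `[n]`. -/
theorem comap_translate_comap {a : A.Pt K} (ha : n • a = 0) {τ : DomEndo A}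
    (hτ : ∀ (R : Type u) [CommRing R] [Algebra K R] (p : A.Pt R),
      τ.act p = p + A.map (Algebra.ofId K R) a) (z : A.FA) :
    τ.comap (φ.comap z) = φ.comap z := by
  rw [φ.comap_comap_of_act τ, hτ, hφ, smul_add, ← map_nsmul, ha, map_zero, add_zero,
    ← hφ, φ.act_genPt, A.evalAt_map_genPt]

include hn hφ

/-- The unramifiedness at the origin. -/
theorem mem_span_comap_orig {w : A.FA} (hw : w ∈ A.localRing A.orig)
    (hw0 : A.evalAt (0 : A.Pt K) w = 0) :
    w ∈ Submodule.span (A.localRing A.orig)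
      (φ.comap '' {z | ∃ h : z ∈ A.localRing A.orig, A.evalHom (0 : A.Pt K) ⟨z, h⟩ = 0}) := by
  obtain ⟨ψ, hψ, hc, -, hgen⟩ := A.exists_nsmulLocal n hn
  obtain ⟨s, rfl⟩ := hw
  have hs : s ∈ maximalIdeal _ := (A.evalAt_eq_zero_iff_not_isUnit (0 : A.Pt K) s).mp hw0
  have key : ∀ s, φ.comap (algebraMap _ A.FA s) = algebraMap _ A.FA (ψ s) := by
    intro s
    have hmem : algebraMap _ A.FA s ∈ A.localRing (φ.hom A.orig) := by
      rw [hom_orig_eq φ hφ]; exact ⟨s, rfl⟩
    obtain ⟨o, ho⟩ := φ.comap_mem_localRing hmem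
    replace ho : algebraMap _ A.FA o = φ.comap (algebraMap _ A.FA s) := ho
    rw [← ho]
    congr 1
    have h1 : A.evalAt (φ.act (A.taut A.orig)) (algebraMap _ A.FA s) = ψ s := by
      rw [hφ]; exact hψ s
    rw [← h1, φ.evalAt_act _ (by rw [φ.centre_act, AVData.centre_taut]; exact hmem), ← ho,
      AVData.evalAt_taut]
  have hs' : s ∈ Ideal.span (ψ '' maximalIdeal (A.X.presheaf.stalk A.orig)) := hgen.symm ▸ hs
  show algebraMap _ A.FA s ∈ _
  clear hs hw0
  refine Submodule.span_induction (fun b hb => ?_) (by simp)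
    (fun b b' _ _ hb hb' => by rw [map_add]; exact add_mem hb hb')
    (fun c b _ hb => ?_) hs'
  · obtain ⟨a, ha, rfl⟩ := hb
    refine Submodule.subset_span ⟨algebraMap _ A.FA a, ⟨⟨a, rfl⟩, ?_⟩, key a⟩
    exact (A.evalAt_of_mem (p := (0 : A.Pt K)) (z := algebraMap _ A.FA a) ⟨a, rfl⟩).symm.trans
      ((A.evalAt_eq_zero_iff_not_isUnit (0 : A.Pt K) a).mpr ha)
  · rw [smul_eq_mul, map_mul]
    exact Submodule.smul_mem _ (⟨algebraMap _ A.FA c, ⟨c, rfl⟩⟩ : A.localRing A.orig) hb

/-- Multiplication by `n` is unramified at a torsion point. -/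
theorem maximalIdeal_eq_span_comap (x : A.Pt K) (hx : n • x = 0)
    (s : A.X.presheaf.stalk (A.centre x)) (hs : s ∈ maximalIdeal _) :
    algebraMap _ A.FA s ∈ Submodule.span (A.localRing (A.centre x))
      (φ.comap '' {z | ∃ h : z ∈ A.localRing (A.centre (0 : A.Pt K)),
        A.evalHom (0 : A.Pt K) ⟨z, h⟩ = 0}) := by
  obtain ⟨τ, hτ⟩ := exists_translateEndo A x
  obtain ⟨σ, hσ⟩ := exists_translateEndo A (-x)
  have hid : Algebra.ofId K K = AlgHom.id K K := AlgHom.ext fun _ => rfl
  have hτ0 : τ.act (0 : A.Pt K) = x := by rw [hτ, zero_add, hid, A.map_id]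
  have hσx : σ.act x = 0 := by rw [hσ, hid, A.map_id, add_neg_cancel]
  have h0 : τ.hom A.orig = A.centre x := by rw [← τ.centre_act (0 : A.Pt K), hτ0]
  have h1 : σ.hom (A.centre x) = A.orig := by rw [← σ.centre_act x, hσx]
  have hστ : ∀ z, σ.comap (τ.comap z) = z := fun z => by
    rw [τ.comap_comap_of_act σ, hτ, hσ, add_assoc, ← map_add, neg_add_cancel, map_zero, add_zero,
      A.evalAt_genPt]
  have hw : τ.comap (algebraMap _ A.FA s) ∈ A.localRing A.orig :=
    τ.comap_mem_localRing (by rw [h0]; exact ⟨s, rfl⟩)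
  have hw0 : A.evalAt (0 : A.Pt K) (τ.comap (algebraMap _ A.FA s)) = 0 := by
    rw [← τ.evalAt_act _ (by rw [hτ0]; exact ⟨s, rfl⟩), hτ0]
    exact (A.evalAt_eq_zero_iff_not_isUnit x s).mpr hs
  have key := mem_span_comap_orig hn φ hφ hw hw0
  rw [← hστ (algebraMap _ A.FA s)]
  generalize τ.comap (algebraMap _ A.FA s) = w at key ⊢
  refine Submodule.span_induction (fun b hb => ?_) (by simp)
    (fun b b' _ _ hb hb' => by rw [map_add]; exact add_mem hb hb')
    (fun c b _ hb => ?_) key
  · obtain ⟨z, hz, rfl⟩ := hb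
    rw [comap_translate_comap φ hφ (a := -x) (by rw [smul_neg, hx, neg_zero]) hσ]
    exact Submodule.subset_span ⟨z, hz, rfl⟩
  · show σ.comap ((c : A.FA) * b) ∈ _
    rw [map_mul]
    exact Submodule.smul_mem _
      (⟨σ.comap (c : A.FA), σ.comap_mem_localRing (by rw [h1]; exact c.2)⟩ :
        A.localRing (A.centre x)) hb

/-- The kernel of `[n]` consists of closed points. -/
theorem isClosed_singleton_of_hom_eq_orig (w : A.X) (hw : φ.hom w = A.orig) :
    IsClosed {w} := by
  have : CompactSpace A.X := QuasiCompact.compactSpace_of_compactSpace A.str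
  obtain ⟨c, hc, hc'⟩ := (isClosed_closure (s := {w})).exists_closed_singleton
    (Set.singleton_nonempty w).closure
  obtain ⟨x, rfl⟩ := A.exists_centre_eq hc'
  have hwx : w ⤳ A.centre x := specializes_iff_mem_closure.mpr hc
  have hx : n • x = 0 := by
    rw [← hφ]
    refine A.centre_injective ?_
    show A.centre (φ.act x) = A.orig
    rw [φ.centre_act]
    have h := hwx.map φ.hom.continuous
    rw [hw] at h
    exact (h.mem_closed (A.isClosed_centre 0) rfl : _)
  let P : A.FA → Prop := fun z => ∃ o ∈ maximalIdeal (A.X.presheaf.stalk w),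
    algebraMap _ A.FA o = z
  have hmem : ∀ s ∈ maximalIdeal (A.X.presheaf.stalk (A.centre x)),
      A.X.presheaf.stalkSpecializes hwx s ∈ maximalIdeal (A.X.presheaf.stalk w) := by
    intro s hs
    have hP : P (algebraMap _ A.FA s) := by
      refine Submodule.span_induction (p := fun z _ => P z) (fun b hb => ?_)
        ⟨0, zero_mem _, map_zero _⟩
        (fun b b' _ _ ⟨o, ho, e⟩ ⟨o', ho', e'⟩ => ⟨o + o', add_mem ho ho', by rw [map_add, e, e']⟩)
        (fun c b _ ⟨o, ho, e⟩ => ?_) (maximalIdeal_eq_span_comap hn φ hφ x hx s hs)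
      · obtain ⟨z, ⟨hz, hz0⟩, rfl⟩ := hb
        have hzw : z ∈ A.localRing (φ.hom w) := hw.symm ▸ hz
        obtain ⟨o, rfl⟩ := hzw
        refine ⟨φ.hom.stalkMap w o, fun hu => ?_, (φ.comap_algebraMap w o).symm⟩
        have ho : IsUnit o := (isUnit_map_iff (φ.hom.stalkMap w).hom o).mp hu
        have h2 : A.IsUnitAt A.orig (algebraMap _ A.FA o) := hw ▸
          (⟨(ho.map (algebraMap _ A.FA)).ne_zero, ⟨o, rfl⟩, ⟨(↑ho.unit⁻¹ : A.X.presheaf.stalk _),
            eq_inv_of_mul_eq_one_left (by
              show algebraMap _ A.FA _ * algebraMap _ A.FA _ = 1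
              rw [← map_mul, IsUnit.val_inv_mul, map_one])⟩⟩ : A.IsUnitAt (φ.hom w) _)
        refine h2.isUnit_evalAt.ne_zero ?_
        exact (A.evalAt_of_mem hz).trans hz0
      · obtain ⟨a, ha⟩ := A.localRing_mono hwx c.2
        refine ⟨a * o, Ideal.mul_mem_left _ _ ho, ?_⟩
        rw [map_mul, e]
        exact congrArg (· * b) ha
    obtain ⟨o, ho, e⟩ := hP
    rwa [← IsFractionRing.injective _ A.FA (e.trans (A.algebraMap_stalkSpecializes hwx s).symm)]
  have h2 : A.X.fromSpecStalk (A.centre x) ((Spec.map (A.X.presheaf.stalkSpecializes hwx))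
      (closedPoint _)) = w := by
    exact (congrArg (fun m : Spec (A.X.presheaf.stalk w) ⟶ A.X => m (closedPoint _))
      (Scheme.SpecMap_stalkSpecializes_fromSpecStalk hwx)).trans Scheme.fromSpecStalk_closedPoint
  have h3 : (Spec.map (A.X.presheaf.stalkSpecializes hwx)) (closedPoint _) =
      closedPoint (A.X.presheaf.stalk (A.centre x)) := by
    refine PrimeSpectrum.ext ?_
    exact ((maximalIdeal.isMaximal _).eq_of_le (PrimeSpectrum.isPrime _).ne_top
      fun s hs => hmem s hs).symm
  rw [h3, Scheme.fromSpecStalk_closedPoint] at h2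
  exact h2 ▸ hc'

theorem finite_torsion : Finite {x : A.Pt K // n • x = 0} := by
  have : IsLocallyNoetherian A.X := LocallyOfFiniteType.isLocallyNoetherian A.str
  have : CompactSpace A.X := QuasiCompact.compactSpace_of_compactSpace A.str
  have : IsNoetherian A.X := { }
  have hF : {w | φ.hom w = A.orig}.Finite := by
    obtain ⟨S, hS, hSc, hSi, hSu⟩ := NoetherianSpace.exists_finite_set_isClosed_irreducible
      ((A.isClosed_centre (0 : A.Pt K)).preimage φ.hom.continuous)
    have hset : {w | φ.hom w = A.orig} = ⋃₀ S := hSu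
    rw [hset]
    refine hS.sUnion fun W hW => ?_
    obtain ⟨y, hy⟩ := QuasiSober.sober (hSi W hW) (hSc W hW)
    rw [← hy.def, (isClosed_singleton_of_hom_eq_orig hn φ hφ y (by
      have : y ∈ ⋃₀ S := ⟨W, hW, hy.mem⟩
      rwa [← hset] at this)).closure_eq]
    exact Set.finite_singleton y
  have := hF.to_subtype
  refine Finite.of_injective (fun x => (⟨A.centre x.1, ?_⟩ : {w | φ.hom w = A.orig}))
    fun a b h => Subtype.ext (A.centre_injective (congrArg Subtype.val h))
  show φ.hom (A.centre x.1) = A.orig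
  rw [← φ.centre_act, hφ, x.2]

/-- The function field has at least as many independent elements over its image under `[n]` as
there are `n`-torsion points. -/
theorem exists_linearIndependent_over_comap :
    ∃ e : {x : A.Pt K // n • x = 0} → A.FA,
      LinearIndependent φ.comap.fieldRange e := by
  have := finite_torsion hn φ hφ
  choose τ hτ using fun a : {x : A.Pt K // n • x = 0} => exists_translateEndo A a.1
  let T : {x : A.Pt K // n • x = 0} → (A.FA →ₐ[φ.comap.fieldRange] A.FA) := fun a =>
    { (τ a).comap.toRingHom with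
      commutes' := by
        rintro ⟨_, z, rfl⟩
        exact comap_translate_comap φ hφ a.2 (hτ a) z }
  have hT : Function.Injective T := by
    intro a b h
    have h' : (τ a).comap = (τ b).comap := AlgHom.ext fun z => AlgHom.congr_fun h z
    have := congrArg (fun c => A.map c A.genPt) h'
    simp only [← DomEndo.act_genPt, hτ, add_right_inj] at this
    exact Subtype.ext (A.map_ofId_injective A.FA this)
  have hrank : (Nat.card {x : A.Pt K // n • x = 0} : Cardinal) ≤
      Module.rank φ.comap.fieldRange A.FA := by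
    by_cases hfin : FiniteDimensional φ.comap.fieldRange A.FA
    · rw [← Module.finrank_eq_rank, Nat.cast_le]
      exact (Nat.card_le_card_of_injective T hT).trans
        (Nat.card_eq_fintype_card.trans_le AlgHom.card_le)
    · exact Cardinal.natCast_le_aleph0.trans
        (le_of_not_gt fun h => hfin (Module.rank_lt_aleph0_iff.mp h))
  obtain ⟨e, he⟩ := exists_linearIndependent_of_le_rank hrank
  exact ⟨e ∘ Finite.equivFin _, he.comp _ (Equiv.injective _)⟩

theorem nsmul_surjective (k : Type u) [Field k] [Algebra K k] [IsAlgClosed k] (p : A.Pt k) :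
    ∃ q : A.Pt k, n • q = p := by
  have : IsProper (φ.hom ≫ A.str) := by rw [φ.w]; infer_instance
  have : IsProper φ.hom := IsProper.of_comp φ.hom A.str
  have : Surjective φ.hom := ⟨fun y => by
    have h : genericPoint A.X ∈ Set.range φ.hom := ⟨_, φ.map_generic⟩
    exact (genericPoint_specializes y).mem_closed φ.hom.isClosedMap.isClosed_range h⟩
  let Z := pullback p.1 φ.hom
  obtain ⟨z₀, -⟩ := (pullback.fst p.1 φ.hom).surjective (closedPoint k)
  have : JacobsonSpace Z := LocallyOfFiniteType.jacobsonSpace (pullback.fst p.1 φ.hom)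
  obtain ⟨z, -, hz⟩ := nonempty_inter_closedPoints (Z := (Set.univ : Set Z))
    ⟨z₀, trivial⟩ isClosed_univ.isLocallyClosed
  let σ := pointOfClosedPoint (pullback.fst p.1 φ.hom) z hz
  have hσ : σ ≫ pullback.fst p.1 φ.hom = 𝟙 _ := pointOfClosedPoint_comp _ _ _
  have hq : σ ≫ pullback.snd p.1 φ.hom ≫ φ.hom = p.1 := by
    rw [← pullback.condition, ← Category.assoc, hσ, Category.id_comp]
  refine ⟨⟨σ ≫ pullback.snd p.1 φ.hom, ?_⟩, ?_⟩
  · calc (σ ≫ pullback.snd p.1 φ.hom) ≫ A.str
        = (σ ≫ pullback.snd p.1 φ.hom) ≫ φ.hom ≫ A.str :=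
          congrArg (fun m => (σ ≫ pullback.snd p.1 φ.hom) ≫ m) φ.w.symm
      _ = p.1 ≫ A.str := by rw [← Category.assoc, Category.assoc σ, hq]
      _ = A.base k := p.2
  · rw [← hφ]
    exact Subtype.ext ((Category.assoc _ _ _).trans hq)

end FermatLib.AV.Tors
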