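import Fermat.Agent.AV.Tors.Alg.RegularUFD

/-!
# Smooth algebras over an algebraically closed field at maximal ideals

Local rings at maximal ideals of standard smooth algebras have coordinates, the algebra is
reduced, and a local ring with coordinates is formally unramified over the polynomial ring.
-/

set_option autoImplicit false

noncomputable section

universe u

open IsLocalRing MvPolynomial

namespace FermatLib.AV.Tors

variable {K : Type u} [Field K] {g : ℕ}

theorem exists_isCoordinates_of_standardSmooth [IsAlgClosed K] {R O : Type u} [CommRing R]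
    [Algebra K R] [Algebra.IsStandardSmoothOfRelativeDimension g K R] (m : Ideal R) [m.IsMaximal]
    [CommRing O] [Algebra R O] [Algebra K O] [IsScalarTower K R O] [IsLocalization.AtPrime O m]
    [IsLocalRing O] :
    IsNoetherianRing O ∧ Algebra.EssFiniteType K O ∧
      ∃ t : Fin g → O, IsCoordinates (K := K) t := by
  have : Algebra.IsStandardSmooth K R :=
    Algebra.IsStandardSmoothOfRelativeDimension.isStandardSmooth g
  have : Algebra.FiniteType K R := inferInstance
  have : IsNoetherianRing R := Algebra.FiniteType.isNoetherianRing K R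
  have hN : IsNoetherianRing O := IsLocalization.isNoetherianRing m.primeCompl O inferInstance
  have : Algebra.EssFiniteType R O := Algebra.EssFiniteType.of_isLocalization O m.primeCompl
  have hE : Algebra.EssFiniteType K O := Algebra.EssFiniteType.comp K R O
  refine ⟨hN, hE, ?_⟩
  obtain ⟨ψ, hψ⟩ :=
    Algebra.IsStandardSmoothOfRelativeDimension.exists_etale_mvPolynomial g K R
  have : Module.Finite K (R ⧸ m) := by
    let : Field (R ⧸ m) := Ideal.Quotient.field m
    exact finite_of_finite_type_of_isJacobsonRing K (R ⧸ m)
  have hres : Function.Surjective (algebraMap K (R ⧸ m)) :=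
    (IsAlgClosed.algebraMap_bijective_of_isIntegral (k := K) (K := R ⧸ m)).2
  choose c hc using fun i => hres (Ideal.Quotient.mk m (ψ (X i)))
  let sh : MvPolynomial (Fin g) K ≃ₐ[K] MvPolynomial (Fin g) K :=
    AlgEquiv.ofAlgHom (aeval fun i => X i - C (c i)) (aeval fun i => X i + C (c i))
      (by ext i; simp) (by ext i; simp)
  let ψ' : MvPolynomial (Fin g) K →ₐ[K] R := ψ.comp sh.toAlgHom
  have hψ' : ψ'.toRingHom.Etale :=
    RingHom.Etale.stableUnderComposition _ _
      (RingHom.Etale.respectsIso.1 (RingHom.id _) sh.toRingEquiv
        (RingHom.Etale.containsIdentities _)) hψ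
  have hmem : ∀ i, ψ' (X i) ∈ m := fun i => by
    rw [← Ideal.Quotient.eq_zero_iff_mem]
    show Ideal.Quotient.mk m (ψ (aeval (fun i => X i - C (c i)) (X i))) = 0
    rw [aeval_X, map_sub, map_sub, ← hc i, sub_eq_zero]
    exact (congrArg (Ideal.Quotient.mk m) (ψ.commutes (c i))).symm
  refine ⟨fun i => algebraMap R O (ψ' (X i)), ?_⟩
  have haev : aeval (R := K) (fun i => algebraMap R O (ψ' (X i))) =
      (IsScalarTower.toAlgHom K R O).comp ψ' := by
    ext i; simp
  let : Algebra (MvPolynomial (Fin g) K) R := ψ'.toRingHom.toAlgebra
  let : Algebra (MvPolynomial (Fin g) K) O :=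
    ((algebraMap R O).comp (algebraMap (MvPolynomial (Fin g) K) R)).toAlgebra
  have : IsScalarTower (MvPolynomial (Fin g) K) R O := .of_algebraMap_eq fun _ => rfl
  have : Algebra.Etale (MvPolynomial (Fin g) K) R := RingHom.etale_algebraMap.mp hψ'
  let P : Ideal (MvPolynomial (Fin g) K) := m.comap ψ'.toRingHom
  have hP : P = Ideal.span (Set.range X) := by
    refine ((?_ : (Ideal.span (Set.range (X (R := K) (σ := Fin g)))).IsMaximal).eq_of_le ?_ ?_).symm
    · have hk : RingHom.ker (constantCoeff (R := K) (σ := Fin g)) = Ideal.span (Set.range X) := by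
        ext p
        rw [RingHom.mem_ker, ← pow_one (Ideal.span (Set.range X)), mem_pow_idealOfVars_iff',
          constantCoeff_eq]
        constructor
        · intro h x hx
          rwa [show x = 0 from (Finsupp.degree_eq_zero_iff x).mp (Nat.lt_one_iff.mp hx)]
        · intro h
          exact h 0 (by simp)
      rw [← hk]
      exact RingHom.ker_isMaximal_of_surjective _ fun r => ⟨C r, constantCoeff_C _ r⟩
    · exact Ideal.IsPrime.ne_top inferInstance
    · rw [Ideal.span_le]
      rintro _ ⟨i, rfl⟩
      exact hmem i
  have hflat : (algebraMap (MvPolynomial (Fin g) K) O).Flat := by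
    have : Module.Flat R O := IsLocalization.flat O m.primeCompl
    exact RingHom.flat_algebraMap_iff.mpr (Module.Flat.trans _ R O)
  refine ⟨?_, ?_, ?_⟩
  · have : P.IsPrime := Ideal.IsPrime.comap _
    have : m.LiesOver P := ⟨rfl⟩
    have hun : Ideal.map (algebraMap _ O) P = maximalIdeal O := by
      have : Algebra.FormallyUnramified R O :=
        Algebra.FormallyUnramified.of_isLocalization m.primeCompl
      have : Algebra.FormallyUnramified (MvPolynomial (Fin g) K) O := .comp _ R O
      have hle : P.primeCompl ≤ Submonoid.comap (algebraMap (MvPolynomial (Fin g) K) O)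
          (IsUnit.submonoid O) := fun a ha =>
        IsLocalization.map_units O (⟨algebraMap _ R a, ha⟩ : m.primeCompl)
      let φ : Localization.AtPrime P →+* O :=
        IsLocalization.lift (M := P.primeCompl) fun a => hle a.2
      let : Algebra (Localization.AtPrime P) O := φ.toAlgebra
      have : IsScalarTower (MvPolynomial (Fin g) K) (Localization.AtPrime P) O :=
        .of_algebraMap_eq fun a => (IsLocalization.lift_eq _ a).symm
      have : Algebra.FormallyUnramified (Localization.AtPrime P) O :=
        .of_restrictScalars (MvPolynomial (Fin g) K) _ _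
      have : Algebra.EssFiniteType (MvPolynomial (Fin g) K) O :=
        Algebra.EssFiniteType.comp _ R O
      have : Algebra.EssFiniteType (Localization.AtPrime P) O :=
        Algebra.EssFiniteType.of_comp (MvPolynomial (Fin g) K) _ _
      have : IsLocalHom (algebraMap (Localization.AtPrime P) O) := by
        refine ⟨fun a ha => ?_⟩
        obtain ⟨⟨b, s⟩, rfl⟩ := IsLocalization.mk'_surjective P.primeCompl a
        rw [IsLocalization.AtPrime.isUnit_mk'_iff (Localization.AtPrime P) P]
        intro hb
        have h1 : algebraMap (MvPolynomial (Fin g) K) O b ∈ maximalIdeal O :=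
          (IsLocalization.AtPrime.to_map_mem_maximal_iff O m _).mpr hb
        refine h1 ?_
        rw [IsScalarTower.algebraMap_apply (MvPolynomial (Fin g) K) (Localization.AtPrime P) O,
          ← IsLocalization.mk'_spec (Localization.AtPrime P) b s, map_mul]
        exact ha.mul ((IsLocalization.map_units _ s).map _)
      rw [IsScalarTower.algebraMap_eq (MvPolynomial (Fin g) K) (Localization.AtPrime P) O,
        ← Ideal.map_map, Localization.AtPrime.map_eq_maximalIdeal,
        Algebra.FormallyUnramified.map_maximalIdeal]
    rw [← hun, hP, Ideal.map_span, ← Set.range_comp]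
    rfl
  · intro a
    obtain ⟨b, rfl⟩ := residue_surjective a
    obtain ⟨r, s, rfl⟩ := IsLocalization.exists_mk'_eq m.primeCompl b
    obtain ⟨r', hr'⟩ := hres (Ideal.Quotient.mk m r)
    obtain ⟨s', hs'⟩ := hres (Ideal.Quotient.mk m s)
    refine ⟨r' / s', ?_⟩
    have hs0 : s' ≠ 0 := fun h => s.2 (Ideal.Quotient.eq_zero_iff_mem.mp (by rw [← hs', h, map_zero]))
    have key : ∀ (a : R) (a' : K), algebraMap K (R ⧸ m) a' = Ideal.Quotient.mk m a →
        algebraMap K (ResidueField O) a' = residue O (algebraMap R O a) := fun a a' h => by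
      rw [IsScalarTower.algebraMap_apply K O (ResidueField O),
        IsScalarTower.algebraMap_apply K R O]
      refine Ideal.Quotient.eq.mpr ?_
      rw [← map_sub]
      exact (IsLocalization.AtPrime.to_map_mem_maximal_iff O m _).mpr (Ideal.Quotient.eq.mp h)
    rw [map_div₀, key r r' hr', key _ s' hs', eq_comm, eq_div_iff, ← map_mul,
      IsLocalization.mk'_spec]
    rw [← key _ s' hs']
    exact (map_ne_zero _).mpr hs0
  · rwa [haev]

/-- A standard smooth algebra over an algebraically closed field is reduced. -/
theorem isReduced_of_standardSmooth [IsAlgClosed K] {R : Type u} [CommRing R] [Algebra K R]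
    [Algebra.IsStandardSmoothOfRelativeDimension g K R] : IsReduced R := by
  refine isReduced_ofLocalizationMaximal R fun m hm => ?_
  obtain ⟨_, -, t, ht⟩ :=
    exists_isCoordinates_of_standardSmooth (K := K) (g := g) m (O := Localization.AtPrime m)
  have := ht.isDomain
  infer_instance

/-- A local ring with coordinates is formally unramified over the polynomial ring. -/
theorem IsCoordinates.formallyUnramified {O : Type u} [CommRing O] [Algebra K O] [IsLocalRing O]
    [Algebra.EssFiniteType K O] {t : Fin g → O} (ht : IsCoordinates (K := K) t)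
    [Algebra (MvPolynomial (Fin g) K) O] [IsScalarTower K (MvPolynomial (Fin g) K) O]
    (hX : ∀ i, algebraMap (MvPolynomial (Fin g) K) O (X i) = t i) :
    Algebra.FormallyUnramified (MvPolynomial (Fin g) K) O := by
  have : Algebra.EssFiniteType (MvPolynomial (Fin g) K) O := Algebra.EssFiniteType.of_comp K _ _
  refine ⟨?_⟩
  have hle : (⊤ : Submodule O (Ω[O⁄MvPolynomial (Fin g) K])) ≤ maximalIdeal O • ⊤ := by
    rw [← KaehlerDifferential.span_range_derivation, Submodule.span_le]
    rintro _ ⟨s, rfl⟩
    rw [SetLike.mem_coe]
    obtain ⟨c, hc⟩ := ht.residue_surjective (residue O s)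
    have hs : s - algebraMap K O c ∈ maximalIdeal O := by
      rw [← residue_eq_zero_iff, map_sub, ← hc, IsScalarTower.algebraMap_apply K O (ResidueField O)]
      exact sub_self _
    rw [← ht.span_eq, Ideal.mem_span_range_iff_exists_fun] at hs
    obtain ⟨a, ha⟩ := hs
    have hs' : s = algebraMap K O c + ∑ i, a i * t i := by rw [ha]; ring
    rw [hs', map_add, map_sum,
      IsScalarTower.algebraMap_apply K (MvPolynomial (Fin g) K) O, Derivation.map_algebraMap,
      zero_add]
    refine Submodule.sum_mem _ fun i _ => ?_
    rw [Derivation.leibniz, ← hX i, Derivation.map_algebraMap, smul_zero, zero_add, hX i]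
    refine Submodule.smul_mem_smul ?_ ((KaehlerDifferential.span_range_derivation _ _).ge trivial)
    rw [← ht.span_eq]
    exact Ideal.subset_span ⟨i, rfl⟩
  refine (Submodule.subsingleton_iff O).mp (subsingleton_iff_bot_eq_top.mp ?_)
  exact (Submodule.eq_bot_of_le_smul_of_le_jacobson_bot (maximalIdeal O)
    _ Module.Finite.fg_top hle (IsLocalRing.maximalIdeal_le_jacobson _)).symm

end FermatLib.AV.Tors
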